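import Fermat.Agent.S26.H926.AmpleSpec
import Fermat.Agent.S26.H126.AbVarCalc

/-!
# Row S26, block AMPLE, leaf `Cover` (helper215)

`cover : H926.Ample.Cover K` — for a nonempty open `U` of an abelian variety `A` over an
algebraically closed field, finitely many of the opens `(U - x) ∩ (U + x)` (`x` a `K`-point)
cover `A`.

Proof.  The union `W` of all `(U - x) ∩ (U + x)` is open.  If `W ≠ A`, its complement contains a
closed point `b` (`A` quasi-compact), which is a `K`-point `β`.  The open sets `T_β⁻¹ U` and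
`([-1] ≫ T_β)⁻¹ U` are nonempty, so they meet (`A` irreducible) in a nonempty open set, which
contains a closed point `c` (`A` Jacobson), i.e. a `K`-point `γ`; then `b + γ ∈ U`, `b - γ ∈ U`,
i.e. `b ∈ (U - γ) ∩ (U + γ)`.  Quasi-compactness gives the finite subcover.
-/

set_option autoImplicit false
universe u

open CategoryTheory CategoryTheory.Limits AlgebraicGeometry NeronModelInfra GoodReductionJacobian

namespace Fermat.Agent.S26.H215

open Fermat.Agent.S26

noncomputable section

variable {K : Type u} [Field K] [IsAlgClosed K]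

/-- The `K`-point attached to a closed point. -/
def ptOfClosed (X : AbVar K) [LocallyOfFiniteType X.str] (b : X.A) (hb : IsClosed {b}) : X.Pt :=
  ⟨pointOfClosedPoint X.str b hb, pointOfClosedPoint_comp X.str b hb⟩

theorem ptOfClosed_apply (X : AbVar K) [LocallyOfFiniteType X.str] (b : X.A) (hb : IsClosed {b})
    (a : Spec (CommRingCat.of K)) : (ptOfClosed X b hb).1 a = b :=
  pointOfClosedPoint_apply X.str b hb a

/-- `T_γ (β(pt)) = T_β (γ(pt))`. -/
theorem transl_apply_comm (X : AbVar K) (β γ : X.Pt) (a : Spec (CommRingCat.of K)) :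
    X.transl γ (β.1 a) = X.transl β (γ.1 a) := by
  have h1 : β.1 ≫ X.transl γ = γ.1 ≫ X.transl β := by
    have e1 := H126.abVar_pt_comp_transl X β γ
    have e2 := H126.abVar_pt_comp_transl X γ β
    have e3 : H126.abVarPtAdd X β γ = H126.abVarPtAdd X γ β := X.comm _ _ _
    show β.1 ≫ H126.abVarTransl X γ = γ.1 ≫ H126.abVarTransl X β
    rw [e1, e2, e3]
  have := congrArg (fun φ : Spec (CommRingCat.of K) ⟶ X.A => φ a) h1
  simpa using this

/-- `T_{-γ} (β(pt)) = T_β ([-1] (γ(pt)))`. -/
theorem transl_negPt_apply (X : AbVar K) (β γ : X.Pt) (a : Spec (CommRingCat.of K)) :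
    X.transl (X.negPt γ) (β.1 a) = X.transl β (X.negHom (γ.1 a)) := by
  rw [transl_apply_comm X β (X.negPt γ) a]
  have h2 : (X.negPt γ).1 = γ.1 ≫ X.negHom := H126.law_inv_coe X.law γ
  rw [h2]
  simp

theorem cover : H926.Ample.Cover K := by
  intro X _ U hU
  obtain ⟨a₀, ha₀⟩ := hU
  haveI : IsProper X.str := X.bundle.proper
  haveI : JacobsonSpace X.A := LocallyOfFiniteType.jacobsonSpace X.str
  haveI : CompactSpace X.A := QuasiCompact.compactSpace_of_compactSpace X.str
  let V : X.Pt → Set X.A := fun x =>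
    (X.transl x) ⁻¹' (U : Set X.A) ∩ (X.transl (X.negPt x)) ⁻¹' (U : Set X.A)
  have hVopen : ∀ x, IsOpen (V x) := fun x =>
    (U.2.preimage (X.transl x).continuous).inter (U.2.preimage (X.transl (X.negPt x)).continuous)
  have hcover : (Set.univ : Set X.A) ⊆ ⋃ x, V x := by
    by_contra hne
    have hZclosed : IsClosed (⋃ x, V x)ᶜ := (isOpen_iUnion hVopen).isClosed_compl
    have hZne : ((⋃ x, V x)ᶜ).Nonempty := by
      rw [Set.nonempty_compl]
      intro h
      exact hne (by rw [h])
    obtain ⟨b, hbZ, hb⟩ := hZclosed.exists_closed_singleton hZne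
    set β : X.Pt := ptOfClosed X b hb with hβ
    -- the two nonempty opens
    have hO1 : IsOpen ((X.transl β) ⁻¹' (U : Set X.A)) := U.2.preimage (X.transl β).continuous
    have hO2 : IsOpen ((X.negHom ≫ X.transl β) ⁻¹' (U : Set X.A)) :=
      U.2.preimage (X.negHom ≫ X.transl β).continuous
    haveI : IsIso (X.transl β) := H126.abVar_transl_isIso X β
    have hN1 : ((X.transl β) ⁻¹' (U : Set X.A)).Nonempty := by
      refine ⟨(inv (X.transl β)) a₀, ?_⟩
      show X.transl β ((inv (X.transl β)) a₀) ∈ U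
      have : (inv (X.transl β) ≫ X.transl β) a₀ = a₀ := by
        rw [IsIso.inv_hom_id]; rfl
      rw [← Scheme.Hom.comp_apply, this]
      exact ha₀
    have hN2 : ((X.negHom ≫ X.transl β) ⁻¹' (U : Set X.A)).Nonempty := by
      refine ⟨(inv (X.negHom ≫ X.transl β)) a₀, ?_⟩
      show (X.negHom ≫ X.transl β) ((inv (X.negHom ≫ X.transl β)) a₀) ∈ U
      have : (inv (X.negHom ≫ X.transl β) ≫ (X.negHom ≫ X.transl β)) a₀ = a₀ := by
        rw [IsIso.inv_hom_id]; rfl
      rw [← Scheme.Hom.comp_apply, this]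
      exact ha₀
    have hOne := nonempty_preirreducible_inter hO1 hO2 hN1 hN2
    -- a closed point in the intersection
    have hOopen : IsOpen ((X.transl β) ⁻¹' (U : Set X.A) ∩
        (X.negHom ≫ X.transl β) ⁻¹' (U : Set X.A)) := hO1.inter hO2
    have hcl := JacobsonSpace.closure_inter_closedPoints_eq_closure hOopen.isLocallyClosed
    have hne2 : (((X.transl β) ⁻¹' (U : Set X.A) ∩
        (X.negHom ≫ X.transl β) ⁻¹' (U : Set X.A)) ∩ closedPoints X.A).Nonempty := by
      rw [← closure_nonempty_iff, hcl, closure_nonempty_iff]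
      exact hOne
    obtain ⟨c, ⟨hc1, hc2⟩, hc⟩ := hne2
    set γ : X.Pt := ptOfClosed X c hc with hγ
    apply hbZ
    refine Set.mem_iUnion.mpr ⟨γ, ?_, ?_⟩
    · show X.transl γ b ∈ U
      have := transl_apply_comm X β γ (IsLocalRing.closedPoint K)
      rw [ptOfClosed_apply, ptOfClosed_apply] at this
      rw [this]
      exact hc1
    · show X.transl (X.negPt γ) b ∈ U
      have := transl_negPt_apply X β γ (IsLocalRing.closedPoint K)
      rw [ptOfClosed_apply, ptOfClosed_apply] at this
      rw [this]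
      exact hc2
  obtain ⟨t, ht⟩ := isCompact_univ.elim_finite_subcover V hVopen hcover
  -- `t` is nonempty
  have hmem : ∀ a : X.A, ∃ x ∈ t, a ∈ V x := by
    intro a
    have := ht (Set.mem_univ a)
    simpa using this
  obtain ⟨x₀, hx₀, -⟩ := hmem a₀
  let xs : Fin (t.card + 1) → X.Pt := fun j =>
    if h : (j : ℕ) < t.card then (t.equivFin.symm ⟨j, h⟩ : X.Pt) else x₀
  refine ⟨t.card, xs, ?_⟩
  intro a
  obtain ⟨x, hx, hax⟩ := hmem a
  let i := t.equivFin ⟨x, hx⟩
  have hi : xs ⟨i, Nat.lt_succ_of_lt i.2⟩ = x := by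
    show (if h : (i : ℕ) < t.card then (t.equivFin.symm ⟨i, h⟩ : X.Pt) else x₀) = x
    rw [dif_pos i.2]
    simp [i]
  refine ⟨⟨i, Nat.lt_succ_of_lt i.2⟩, ?_⟩
  rw [hi]
  exact hax

end

end Fermat.Agent.S26.H215
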